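import Fermat.Agent.S43.Core.Mid
import Fermat.Agent.S43.BigImg.Main

/-!
# S43 / Core / Frey : (BIGIMG + GWS) + (TAN + COUNT) for the Frey representation

`false_of_forall_algOut` : let `bad j` (`j < t`, `t ≥ 1`) be distinct primes `≠ 2, p` at which `rho P = E[p] ⊗ 𝔽_{p²}` is scalar.
If for every `n₀` there is a control constant `d` such that EVERY Taylor-Wiles set `qv : Fin n₀ → ℕ` of depth `n` (any `n`)
carries an `AlgOut` with exponent `P0 = p ^ (n + 1)` and constant `d`, then `False`.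
So the remaining work of S43 = construct `AlgOut` (GEO + BRIDGE + SELP) and `hscal` (MAZ).
-/

set_option autoImplicit false

open Matrix Polynomial

noncomputable section

namespace Fermat.Agent.S43.Core

open Fermat.Agent.S53 (G M2)
open Fermat.Agent.S56
open Fermat.Agent.S56.C (ad rm IsCoc IsCob liftMat)
open Fermat.Agent.S43.BigImg
open WeierstrassCurve WeierstrassCurve.Affine WeierstrassCurve.Affine.Point

/-- the set of primes where ramification is allowed. -/
def ramSet (P : FreyPackage) {t n₀ : ℕ} (bad : Fin t → ℕ) (qv : Fin n₀ → ℕ) : Finset ℕ :=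
  ({2, P.p} : Finset ℕ) ∪ Finset.univ.image bad ∪ Finset.univ.image qv

/-- `qv` is a Taylor-Wiles set of depth `n` for `rho P`, outside `S`. -/
def IsTWSet (P : FreyPackage) (S : Finset ℕ) (n : ℕ) {n₀ : ℕ} (qv : Fin n₀ → ℕ) : Prop :=
  Function.Injective qv ∧
    (∀ i, (qv i).Prime ∧ qv i ∉ S ∧ P.p ^ (n + 1) ∣ qv i - 1) ∧
    (∀ i, ∀ A : ValuationSubring (AlgebraicClosure ℚ), A.LiesOverPrime (qv i) →
      ∀ φ : G, A.IsFrobeniusAt φ (qv i) →
        ∃ α β : kk P, α ≠ β ∧ LinearMap.charpoly ((rho P).ρ φ) = (X - C α) * (X - C β))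

theorem false_of_forall_algOut (P : FreyPackage)
    (hirr : GaloisRepIsIrreducible (K := AlgebraicClosure ℚ) ℚ P.freyCurve P.p)
    {t : ℕ} (ht : 0 < t) (bad : Fin t → ℕ) (hinj : Function.Injective bad)
    (hprime : ∀ j, (bad j).Prime) (hne2 : ∀ j, bad j ≠ 2) (hnep : ∀ j, bad j ≠ P.p)
    (hscal : ∀ j, GWS.ScalarAt (T.matRep (rho P)) (bad j))
    (S : Finset ℕ) (h2S : 2 ∈ S) (hpS : P.p ∈ S) (hbadS : ∀ j, bad j ∈ S)
    (H : ∀ n₀ : ℕ, ∃ d : ℕ, ∀ (n : ℕ) (qv : Fin n₀ → ℕ), IsTWSet P S n qv →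
      Nonempty (AlgOut P.p (T.matRep (rho P)) (ramSet P bad qv) bad n₀ (P.p ^ (n + 1)) d)) :
    False := by
  classical
  have hcard : (Finset.univ.image bad).card = t := by
    rw [Finset.card_image_of_injective _ hinj, Finset.card_univ, Fintype.card_fin]
  obtain ⟨n₀, hle, h⟩ := tw_frey_full P hirr S (Finset.univ.image bad) h2S hpS
    (by
      intro q hq
      obtain ⟨j, -, rfl⟩ := Finset.mem_image.1 hq
      exact hbadS j)
    (by
      intro q hq
      obtain ⟨j, -, rfl⟩ := Finset.mem_image.1 hq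
      exact hprime j)
    (by
      intro hq
      obtain ⟨j, -, hj⟩ := Finset.mem_image.1 hq
      exact hne2 j hj)
    (by
      intro hq
      obtain ⟨j, -, hj⟩ := Finset.mem_image.1 hq
      exact hnep j hj)
    (by
      intro q hq
      obtain ⟨j, -, rfl⟩ := Finset.mem_image.1 hq
      exact hscal j)
  rw [hcard] at hle h
  obtain ⟨d, hd⟩ := H n₀
  set N : ℕ := d * 2 ^ t * (d * (n₀ + 1)) ^ (2 * t + (n₀ - 3 * t)) with hN
  obtain ⟨qv, hqinj, hq1, hq2, T₁, hT₁, ht0, hT⟩ := h N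
  obtain ⟨O⟩ := hd N qv ⟨hqinj, hq1, hq2⟩
  refine false_of_algOut (two_ne_zero_kk' P) P.p (T.matRep (rho P)) (ramSet P bad qv) bad n₀
    (P.p ^ (N + 1)) d (n₀ - 3 * t) O hscal T₁ hT₁ ht0 ?_ (by omega) ?_
  · intro c h1 h2 h3 h4 h5 h6
    refine hT c h1 h2 h3 h4 h5 ?_
    intro q hq
    obtain ⟨j, -, rfl⟩ := Finset.mem_image.1 hq
    exact h6 j
  · calc N < N + 1 := Nat.lt_succ_self N
      _ < P.p ^ (N + 1) := Nat.lt_pow_self P.pp.one_lt

end Fermat.Agent.S43.Core

end
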