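import Fermat.Agent.S43.Tan.Rep
import Fermat.Agent.S43.CountDual
import Fermat.Agent.S43.GWS.Full

/-!
# S43 / Core / Mid : the central interface of route TWQ

`AlgOut` = what the geometric half + BRIDGE + SELP have to deliver for ONE Taylor-Wiles set `qv`
(everything in KERNEL form);  `false_of_algOut` = (TAN + COUNT): such data cannot exist when `P0` is large.
-/

set_option autoImplicit false

open Matrix

noncomputable section

namespace Fermat.Agent.S43.Core

open Fermat.Agent.S53 (G M2)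
open Fermat.Agent.S56
open Fermat.Agent.S56.C (ad rm IsCoc IsCob liftMat)
open Fermat.Agent.S43.Tan

/-- **The output of GEO + BRIDGE + SELP** for the residual representation `r`, the set `S'` of primes where ramification is
allowed, the bad (scalar) primes `bad j`, `n₀` Taylor-Wiles variables of exponent `P0`, control constant `d`. -/
structure AlgOut (p : ℕ) {k : Type} [Field k] (r : G →* GL (Fin 2) k) (S' : Finset ℕ)
    {t : ℕ} (bad : Fin t → ℕ) (n₀ P0 d : ℕ) : Type 1 where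
  A : Type
  [cA : CommRing A]
  [aA : Algebra k A]
  [fA : Module.Finite k A]
  π : A →ₐ[k] k
  hnil : ∃ N, (RingHom.ker π : Ideal A) ^ N = ⊥
  R : G → M2 A
  hR : ∀ σ, (R σ).map π = rm r σ
  htr : Algebra.adjoin k (Set.range fun σ => (R σ).trace) = ⊤
  hprop : ∀ (φ : A →ₐ[k] DualNumber k) (c : G → M2 k), Function.Surjective φ →
      (∀ σ, (R σ).map φ = liftMat r c σ) → SelProps r c p S' ∅
  L : Type
  [gL : AddCommGroup L]
  [kL : Module k L]
  [mL : Module A L]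
  [sL : IsScalarTower k A L]
  [fL : FiniteDimensional k L]
  a : Fin t → A
  b : Fin t → A
  c : Fin t → A
  hb : ∀ j, b j ∈ RingHom.ker π
  hc : ∀ j, c j ∈ RingHom.ker π
  hrel : ∀ j (l : L), (a j ^ 2 + b j * c j) • l = 0
  /-- (GA-K) in kernel form -/
  hker : ∀ j, ∀ P : ValuationSubring (AlgebraicClosure ℚ), P.LiesOverPrime (bad j) →
    ∀ σ ∈ P.decompositionSubgroup ℚ, ∀ l : L, a j • l = 0 → b j • l = 0 → c j • l = 0 →
      R σ 0 1 • l = 0 ∧ R σ 1 0 • l = 0 ∧ (R σ 0 0 - R σ 1 1) • l = 0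
  y : Fin n₀ → A
  hy : ∀ i, y i ∈ RingHom.ker π
  /-- the exponents (`Q i` = `p`-part of `s_i - 1`) -/
  Q : Fin n₀ → ℕ
  hQ : ∀ i, P0 ≤ Q i
  hyQ : ∀ i (l : L), y i ^ Q i • l = 0
  /-- (SIZE) -/
  hA : ∃ v : L, (∏ i, y i ^ (Q i - 1)) • v ≠ 0
  /-- (CONTROL) -/
  hB : ∀ U : Submodule k L, (∀ l ∈ U, ∀ i, y i • l = 0) → Module.finrank k U ≤ d

attribute [instance] AlgOut.cA AlgOut.aA AlgOut.fA AlgOut.gL AlgOut.kL AlgOut.mL AlgOut.sL AlgOut.fL

variable {k : Type} [Field k]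

theorem nilp_of_mem_ker {A L : Type} [CommRing A] [Algebra k A] [AddCommGroup L] [Module A L]
    (π : A →ₐ[k] k) (hnil : ∃ N, (RingHom.ker π : Ideal A) ^ N = ⊥) {z : A}
    (hz : z ∈ RingHom.ker π) : ∃ n, ∀ l : L, z ^ n • l = 0 := by
  obtain ⟨N, hN⟩ := hnil
  refine ⟨N, fun l => ?_⟩
  have : z ^ N ∈ (RingHom.ker π : Ideal A) ^ N := Ideal.pow_mem_pow hz N
  rw [hN, Ideal.mem_bot] at this
  rw [this, zero_smul]

/-- **TAN + COUNT.** -/
theorem false_of_algOut [Finite k] (h2 : (2 : k) ≠ 0) (p : ℕ) (r : G →* GL (Fin 2) k) (S' : Finset ℕ)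
    {t : ℕ} (bad : Fin t → ℕ) (n₀ P0 d g : ℕ) (O : AlgOut p r S' bad n₀ P0 d)
    (hscal : ∀ j, GWS.ScalarAt r (bad j))
    (T₁ : Finset (G → M2 k)) (hcard : T₁.card ≤ Nat.card k ^ g)
    (ht0 : ∃ t ∈ T₁, IsCob r t)
    (hT : ∀ c, IsCoc r c → C.Smooth c → C.TraceZero c →
      (∀ q : ℕ, q.Prime → q ∉ S' → C.UnramAt c q) → C.FlatAt r c p →
      (∀ j, GWS.StrictAt c (bad j)) → ∃ t ∈ T₁, IsCob r (c - t))
    (hdim : 2 * t + g < n₀) (hP : d * 2 ^ t * (d * (n₀ + 1)) ^ (2 * t + g) < P0) : False := by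
  classical
  -- the union of the decomposition groups at the bad primes
  let D : Set G := {σ | ∃ j, ∃ P : ValuationSubring (AlgebraicClosure ℚ), P.LiesOverPrime (bad j) ∧
    σ ∈ P.decompositionSubgroup ℚ}
  -- the submodule killed by all `a j, b j, c j`
  let K : Submodule O.A O.L :=
    { carrier := {l | ∀ j, O.a j • l = 0 ∧ O.b j • l = 0 ∧ O.c j • l = 0}
      add_mem' := by
        intro u v hu hv j
        simp only [smul_add, (hu j).1, (hu j).2.1, (hu j).2.2, (hv j).1, (hv j).2.1, (hv j).2.2,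
          add_zero, and_self]
      zero_mem' := by
        intro j
        simp
      smul_mem' := by
        intro z u hu j
        simp only [smul_comm _ z u, (hu j).1, (hu j).2.1, (hu j).2.2, smul_zero, and_self] }
  obtain ⟨x, hx, hle⟩ := tan_ideal h2 O.π O.hnil r O.R O.hR O.htr p S' ∅ O.hprop D
    (by
      rintro σ ⟨j, P, hP, hσ⟩
      exact hscal j P hP σ hσ)
    K.annihilator
    (by
      rintro σ ⟨j, P, hP, hσ⟩
      refine ⟨?_, ?_, ?_⟩ <;> rw [Submodule.mem_annihilator] <;> intro l hl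
      · exact (O.hker j P hP σ hσ l (hl j).1 (hl j).2.1 (hl j).2.2).1
      · exact (O.hker j P hP σ hσ l (hl j).1 (hl j).2.1 (hl j).2.2).2.1
      · exact (O.hker j P hP σ hσ l (hl j).1 (hl j).2.1 (hl j).2.2).2.2)
    T₁ g hcard ht0
    (by
      intro c h1 h2' h3 h4 h5 _ h7
      exact hT c h1 h2' h3 h4 h5 fun j P hP σ hσ => h7 σ ⟨j, P, hP, hσ⟩)
  refine CountAbs.count_false_ker (k := k) (L := O.L) P0 d O.Q O.hQ O.a O.b O.c x O.y O.hrel O.hyQ
    (fun j => nilp_of_mem_ker O.π O.hnil (O.hb j)) (fun j => nilp_of_mem_ker O.π O.hnil (O.hc j))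
    (fun i => nilp_of_mem_ker O.π O.hnil (hx i)) ?_ O.hA O.hB hdim hP
  intro l ha hb hc hxl i
  obtain ⟨z, hz, w, hw, hzw⟩ := Submodule.mem_sup.1 (hle (O.hy i))
  rw [← hzw, add_smul]
  have h1 : z • l = 0 := (Submodule.mem_annihilator.1 hz) l fun j => ⟨ha j, hb j, hc j⟩
  have h3 : w • l = 0 := by
    obtain ⟨e, rfl⟩ := (Ideal.mem_span_range_iff_exists_fun).1 hw
    rw [Finset.sum_smul]
    refine Finset.sum_eq_zero fun i _ => ?_
    rw [mul_smul, hxl i, smul_zero]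
  rw [h1, h3, add_zero]

end Fermat.Agent.S43.Core
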